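/-
Programme TW (S56), brick B5-ADAPT (helper57): `LocalFlatInertialLine p → SIface72.LocFL 𝒪 p`.
Step (FLT): a `G_ℚ`-module which is flat at `p` (points in `ℚ̄` of a finite flat Hopf algebra over `ℤ_(p)`)
is, restricted along `localGaloisToGlobal p`, a flat local module (points in `K̄ = PadicAlgCl p`):
`Hom_alg(H, ℚ̄) ≃ Hom_alg(H, K̄)` because the points of a finite algebra are algebraic over `ℚ`.
-/
import Mathlib
import Fermat.Agent.TW.B5.Iface
import Fermat.Agent.PT.BR.LocInj13

set_option autoImplicit false
set_option linter.unusedSectionVars false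

namespace Fermat.Agent.TW.B5.Adapt57.FlatTransport

open Fermat.Agent.TW.Interface Fermat.Agent.TW.B5.Iface Fermat.Agent.PT.BR

variable (p : ℕ) [Fact p.Prime]

/-- `padicEmbedding` as a `ℤ_(p)`-algebra map. -/
noncomputable def embZ : AlgebraicClosure ℚ →ₐ[Zloc p] Kbar p :=
  (padicEmbedding p).restrictScalars (Zloc p)

theorem embZ_apply (x : AlgebraicClosure ℚ) : embZ p x = padicEmbedding p x := rfl

theorem embZ_injective : Function.Injective (embZ p) := (padicEmbedding p).injective

variable {p}
variable (H : Type) [CommRing H] [Algebra (Zloc p) H] [Module.Finite (Zloc p) H]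

/-- Every `K̄`-point of a finite `ℤ_(p)`-algebra takes values in `ℚ̄`. -/
theorem exists_embZ_eq (g : H →ₐ[Zloc p] Kbar p) (h : H) : ∃ β : AlgebraicClosure ℚ, embZ p β = g h := by
  have hint : IsIntegral (Zloc p) h := Algebra.IsIntegral.isIntegral h
  have h1 : IsIntegral (Zloc p) (g h) := hint.map g
  have h2 : IsIntegral ℚ (g h) := h1.tower_top
  exact LocInj13.exists_padicEmbedding_eq_of_isIntegral p h2

/-- Composition with the embedding `ℚ̄ → K̄`, on points. -/
noncomputable def compEmb (f : H →ₐ[Zloc p] AlgebraicClosure ℚ) : H →ₐ[Zloc p] Kbar p :=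
  (embZ p).comp f

theorem compEmb_apply (f : H →ₐ[Zloc p] AlgebraicClosure ℚ) (h : H) :
    compEmb H f h = padicEmbedding p (f h) := rfl

theorem compEmb_bijective : Function.Bijective (compEmb (p := p) H) := by
  constructor
  · intro f f' hff'
    ext h
    apply embZ_injective p
    exact DFunLike.congr_fun hff' h
  · intro g
    have hr : ∀ h : H, g h ∈ (embZ p).range := fun h => by
      obtain ⟨β, hβ⟩ := exists_embZ_eq H g h
      exact ⟨β, hβ⟩
    refine ⟨((AlgEquiv.ofInjective (embZ p) (embZ_injective p)).symm : _ →ₐ[Zloc p] _).comp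
      (g.codRestrict (embZ p).range hr), ?_⟩
    ext h
    simp only [compEmb, AlgHom.comp_apply]
    have := (AlgEquiv.ofInjective (embZ p) (embZ_injective p)).apply_symm_apply
      (g.codRestrict (embZ p).range hr h)
    exact congrArg Subtype.val this

/-- `Hom_alg(H, ℚ̄) ≃ Hom_alg(H, K̄)`. -/
noncomputable def ptsEquiv : (H →ₐ[Zloc p] AlgebraicClosure ℚ) ≃ (H →ₐ[Zloc p] Kbar p) :=
  Equiv.ofBijective _ (compEmb_bijective H)

theorem ptsEquiv_apply (f : H →ₐ[Zloc p] AlgebraicClosure ℚ) (h : H) :
    ptsEquiv H f h = padicEmbedding p (f h) := rfl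

theorem padicEmbedding_ptsEquiv_symm (g : H →ₐ[Zloc p] Kbar p) (h : H) :
    padicEmbedding p ((ptsEquiv H).symm g h) = g h := by
  rw [← ptsEquiv_apply, Equiv.apply_symm_apply]

section Main

variable (K : Type) [CommRing K] [HopfAlgebra (Zloc p) K] [Module.Finite (Zloc p) K]

/-- The bijection on points is multiplicative for the convolution products. -/
theorem ptsEquiv_mul (f g : WithConv (K →ₐ[Zloc p] AlgebraicClosure ℚ)) :
    WithConv.toConv (ptsEquiv K (f * g).ofConv) =
      WithConv.toConv (ptsEquiv K f.ofConv) * WithConv.toConv (ptsEquiv K g.ofConv) := by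
  apply WithConv.ofConv_injective
  exact AlgHom.comp_convMul_distrib (embZ p) f g

/-- The bijection on points, on `WithConv`. -/
noncomputable def convEquiv :
    WithConv (K →ₐ[Zloc p] AlgebraicClosure ℚ) ≃ WithConv (K →ₐ[Zloc p] Kbar p) :=
  WithConv.congr (ptsEquiv K)

theorem convEquiv_apply (f : WithConv (K →ₐ[Zloc p] AlgebraicClosure ℚ)) (h : K) :
    convEquiv K f h = padicEmbedding p (f h) := rfl

theorem convEquiv_mul (f g : WithConv (K →ₐ[Zloc p] AlgebraicClosure ℚ)) :
    convEquiv K (f * g) = convEquiv K f * convEquiv K g :=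
  ptsEquiv_mul K f g

theorem convEquiv_symm_mul (f g : WithConv (K →ₐ[Zloc p] Kbar p)) :
    (convEquiv K).symm (f * g) = (convEquiv K).symm f * (convEquiv K).symm g := by
  apply (convEquiv K).injective
  rw [convEquiv_mul, Equiv.apply_symm_apply, Equiv.apply_symm_apply, Equiv.apply_symm_apply]

theorem padicEmbedding_convEquiv_symm (g : WithConv (K →ₐ[Zloc p] Kbar p)) (h : K) :
    padicEmbedding p ((convEquiv K).symm g h) = g h := by
  rw [← convEquiv_apply, Equiv.apply_symm_apply]

end Main

/-- **(FLT)** A `G_ℚ`-module flat at `p`, restricted to `G_p`, is a flat local module. -/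
theorem isFlatLocalModule_of_isFlatGaloisModule {X : Type} [AddCommGroup X] (act : GalQ → X → X)
    (h : IsFlatGaloisModule p X act) :
    IsFlatLocalModule p X (fun τ => act (localGaloisToGlobal p τ)) := by
  obtain ⟨K, hK1, hK2, hfin, hflat, hcocomm, e, hadd, heq⟩ := h
  refine ⟨K, hK1, hK2, hfin, hflat, hcocomm, (convEquiv K).symm.trans e, ?_, ?_⟩
  · intro f g
    rw [Equiv.trans_apply, Equiv.trans_apply, Equiv.trans_apply, convEquiv_symm_mul, hadd]
  · intro τ f g hfg
    rw [Equiv.trans_apply, Equiv.trans_apply]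
    apply heq
    intro x
    have hinj : Function.Injective (padicEmbedding p) := (padicEmbedding p).injective
    apply hinj
    rw [padicEmbedding_convEquiv_symm, padicEmbedding_localGaloisToGlobal,
      padicEmbedding_convEquiv_symm, hfg]

end Fermat.Agent.TW.B5.Adapt57.FlatTransport
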