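/-
Programme TW (S56), brick B5-ADAPT (helper57).  Step (UR), abstract form (no number theory):

`G` a group with a level basis `𝓑`, `A` a finite `G`-module, `Iner ⊴ G` such that at every level
`U ∈ 𝓑` the group `G` is generated by `Iner`, `U` and ONE element `φ` (depending on `U`).
Then the classes in `H¹(𝓑, A)` represented by a level cocycle vanishing on `Iner` form a submodule
`H1ur` with at most `#A^G` elements.
-/
import Mathlib
import Fermat.Agent.PT.PRO.LevelCoh28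

set_option autoImplicit false
set_option linter.unusedSectionVars false

namespace Fermat.Agent.TW.B5.Adapt57.UnrAbstract

open groupCohomology Fermat.Agent.PT.PRO Fermat.Agent.PT.PRO.LevelCoh28

/-- For an endomorphism of a finite abelian group, cokernel and kernel have the same size. -/
theorem card_quotient_range_eq_card_ker {M : Type*} [AddCommGroup M] [Finite M] (T : M →+ M) :
    Nat.card (M ⧸ T.range) = Nat.card T.ker := by
  have h1 := AddSubgroup.card_eq_card_quotient_mul_card_addSubgroup T.ker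
  have h2 := AddSubgroup.card_eq_card_quotient_mul_card_addSubgroup T.range
  have h3 : Nat.card (M ⧸ T.ker) = Nat.card T.range :=
    Nat.card_congr (QuotientAddGroup.quotientKerEquivRange T).toEquiv
  rw [h3] at h1
  have h4 : Nat.card T.range ≠ 0 := Nat.card_pos.ne'
  have : Nat.card (M ⧸ T.range) * Nat.card T.range = Nat.card T.ker * Nat.card T.range := by
    rw [← h2, h1, mul_comm]
  exact Nat.eq_of_mul_eq_mul_right (Nat.pos_of_ne_zero h4) this

variable {k G : Type} [CommRing k] [Group G] (A : Rep.{0} k G)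

theorem ρ_inv_apply (g : G) (a : A) : A.ρ g⁻¹ (A.ρ g a) = a := by
  rw [← Module.End.mul_apply, ← map_mul, inv_mul_cancel, map_one, Module.End.one_apply]

theorem ρ_apply_inv (g : G) (a : A) : A.ρ g (A.ρ g⁻¹ a) = a := by
  rw [← Module.End.mul_apply, ← map_mul, mul_inv_cancel, map_one, Module.End.one_apply]

/-- The zero set of a cocycle is a subgroup. -/
def zeroSubgroup (f : G → A) (hf : f ∈ cocycles₁ A) : Subgroup G where
  carrier := {g | f g = 0}
  mul_mem' {a b} ha hb := by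
    change f a = 0 at ha
    change f b = 0 at hb
    change f (a * b) = 0
    rw [(mem_cocycles₁_iff f).1 hf, hb, ha, map_zero, add_zero]
  one_mem' := cocycles₁_map_one ⟨f, hf⟩
  inv_mem' {a} ha := by
    change f a = 0 at ha
    change f a⁻¹ = 0
    have h : A.ρ a (f a⁻¹) = -f a := cocycles₁_map_inv ⟨f, hf⟩ a
    rw [ha, neg_zero] at h
    have := congrArg (A.ρ a⁻¹) h
    rwa [ρ_inv_apply, map_zero] at this

theorem mem_zeroSubgroup {f : G → A} (hf : f ∈ cocycles₁ A) (g : G) :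
    g ∈ zeroSubgroup A f hf ↔ f g = 0 := Iff.rfl

/-- The vectors fixed by a subgroup. -/
def fixedBy (K : Subgroup G) : Submodule k A where
  carrier := {a | ∀ g ∈ K, A.ρ g a = a}
  add_mem' {a b} ha hb g hg := by rw [map_add, ha g hg, hb g hg]
  zero_mem' g _ := map_zero _
  smul_mem' c a ha g hg := by rw [map_smul, ha g hg]

theorem mem_fixedBy {K : Subgroup G} {a : A} : a ∈ fixedBy A K ↔ ∀ g ∈ K, A.ρ g a = a := Iff.rfl

section Level

variable (K : Subgroup G) [hK : K.Normal] (φ : G)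
  (hgen : ∀ Z : Subgroup G, K ≤ Z → φ ∈ Z → Z = ⊤)

/-- A cocycle vanishing on the normal subgroup `K` takes values in `A^K`. -/
theorem apply_mem_fixedBy {f : G → A} (hf : f ∈ cocycles₁ A) (hfK : ∀ κ ∈ K, f κ = 0) (g : G) :
    f g ∈ fixedBy A K := by
  intro κ hκ
  have h1 : f (κ * g) = A.ρ κ (f g) := by
    rw [(mem_cocycles₁_iff f).1 hf, hfK κ hκ, add_zero]
  have h2 : κ * g = g * (g⁻¹ * κ * g) := by group
  have h3 : g⁻¹ * κ * g ∈ K := by
    have := hK.conj_mem κ hκ g⁻¹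
    rwa [inv_inv] at this
  rw [← h1, h2, (mem_cocycles₁_iff f).1 hf, hfK _ h3, map_zero, zero_add]

include hgen in
/-- Two cocycles vanishing on `K` which agree at `φ` are equal. -/
theorem eq_of_apply_eq {f f' : G → A} (hf : f ∈ cocycles₁ A) (hf' : f' ∈ cocycles₁ A)
    (hfK : ∀ κ ∈ K, f κ = 0) (hf'K : ∀ κ ∈ K, f' κ = 0) (hφ : f φ = f' φ) : f = f' := by
  have hh : f - f' ∈ cocycles₁ A := (cocycles₁ A).sub_mem hf hf'
  have hK' : K ≤ zeroSubgroup A (f - f') hh := fun κ hκ => by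
    rw [mem_zeroSubgroup, Pi.sub_apply, hfK κ hκ, hf'K κ hκ, sub_zero]
  have hφ' : φ ∈ zeroSubgroup A (f - f') hh := by
    rw [mem_zeroSubgroup, Pi.sub_apply, hφ, sub_self]
  funext g
  have : g ∈ zeroSubgroup A (f - f') hh := by
    rw [hgen _ hK' hφ']
    exact Subgroup.mem_top g
  rw [mem_zeroSubgroup, Pi.sub_apply, sub_eq_zero] at this
  exact this

/-- `ρ φ - 1` preserves `A^K`. -/
theorem sub_mem_fixedBy {a : A} (ha : a ∈ fixedBy A K) : A.ρ φ a - a ∈ fixedBy A K := by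
  intro κ hκ
  have h3 : φ⁻¹ * κ * φ ∈ K := by
    have := hK.conj_mem κ hκ φ⁻¹
    rwa [inv_inv] at this
  have h2 : κ * φ = φ * (φ⁻¹ * κ * φ) := by group
  rw [map_sub, ha κ hκ, ← Module.End.mul_apply, ← map_mul, h2, map_mul, Module.End.mul_apply,
    ha _ h3]

/-- The endomorphism `ρ φ - 1` of `A^K`, as an additive map. -/
def TT : ↥(fixedBy A K) →+ ↥(fixedBy A K) where
  toFun a := ⟨A.ρ φ a.1 - a.1, sub_mem_fixedBy A K φ a.2⟩
  map_zero' := by
    apply Subtype.ext
    simp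
  map_add' a b := by
    apply Subtype.ext
    simp only [Submodule.coe_add, map_add]
    abel

include hgen in
/-- The kernel of `ρ φ - 1` on `A^K` consists of `G`-invariants. -/
theorem mem_invariants_of_mem_ker {a : ↥(fixedBy A K)} (ha : a ∈ (TT A K φ).ker) :
    a.1 ∈ A.ρ.invariants := by
  have h1 : A.ρ φ a.1 = a.1 := by
    have := congrArg Subtype.val ((AddMonoidHom.mem_ker).1 ha)
    simpa [TT, sub_eq_zero] using this
  let Z : Subgroup G :=
    { carrier := {g | A.ρ g a.1 = a.1}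
      mul_mem' := fun {x y} hx hy => by
        change A.ρ x a.1 = a.1 at hx
        change A.ρ y a.1 = a.1 at hy
        change A.ρ (x * y) a.1 = a.1
        rw [map_mul, Module.End.mul_apply, hy, hx]
      one_mem' := by
        change A.ρ 1 a.1 = a.1
        rw [map_one, Module.End.one_apply]
      inv_mem' := fun {x} hx => by
        change A.ρ x a.1 = a.1 at hx
        change A.ρ x⁻¹ a.1 = a.1
        conv_lhs => rw [← hx]
        exact ρ_inv_apply A x a.1 }
  have hZ : Z = ⊤ := hgen Z (fun κ hκ => a.2 κ hκ) h1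
  intro g
  have : g ∈ Z := by rw [hZ]; exact Subgroup.mem_top g
  exact this

variable (𝓑 : LevelBasis G)

include hgen in
/-- **Per-level count.**  Finitely many classes, each represented by a cocycle vanishing on `K`:
at most `#A^G` of them. -/
theorem card_le_of_level [Finite A] (t : Finset (H1 𝓑 A))
    (ht : ∀ x ∈ t, ∃ f : ↥(Z1 𝓑 A), H1mk 𝓑 A f = x ∧ ∀ κ ∈ K, (f : G → A) κ = 0) :
    t.card ≤ Nat.card A.ρ.invariants := by
  classical
  choose! rep hrep hrepK using ht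
  have hcoc : ∀ x, (rep x : G → A) ∈ cocycles₁ A := fun x => (rep x).2.1
  -- the map to the cokernel of `ρ φ - 1` on `A^K`
  let Ψ : ↥t → (↥(fixedBy A K) ⧸ (TT A K φ).range) := fun x =>
    QuotientAddGroup.mk ⟨(rep x.1 : G → A) φ, apply_mem_fixedBy A K (hcoc x.1) (hrepK x.1 x.2) φ⟩
  have hΨ : Function.Injective Ψ := by
    intro x y hxy
    have hxy' := (QuotientAddGroup.eq).1 hxy
    obtain ⟨n, hn⟩ := hxy'
    -- `rep y φ - rep x φ = ρ φ n - n`
    have hn' : A.ρ φ n.1 - n.1 = (rep y.1 : G → A) φ - (rep x.1 : G → A) φ := by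
      have := congrArg Subtype.val hn
      simp only [TT, AddMonoidHom.coe_mk, ZeroHom.coe_mk, Submodule.coe_add,
        NegMemClass.coe_neg] at this
      rw [this]; abel
    -- the coboundary of `n`
    have hd : (d₀₁ A).hom n.1 ∈ cocycles₁ A := d₀₁_apply_mem_cocycles₁ n.1
    have hdK : ∀ κ ∈ K, (d₀₁ A).hom n.1 κ = 0 := fun κ hκ => by
      show A.ρ κ n.1 - n.1 = 0
      rw [n.2 κ hκ, sub_self]
    have hsum : (rep y.1 : G → A) = (rep x.1 : G → A) + (d₀₁ A).hom n.1 := by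
      refine eq_of_apply_eq A K φ hgen (hcoc y.1) ((cocycles₁ A).add_mem (hcoc x.1) hd)
        (hrepK y.1 y.2) (fun κ hκ => ?_) ?_
      · rw [Pi.add_apply, hrepK x.1 x.2 κ hκ, hdK κ hκ, add_zero]
      · rw [Pi.add_apply]
        show _ = _ + (A.ρ φ n.1 - n.1)
        rw [hn']; abel
    apply Subtype.ext
    rw [← hrep x.1 x.2, ← hrep y.1 y.2]
    symm
    rw [← sub_eq_zero, ← map_sub, H1mk_eq_zero_iff]
    refine ⟨n.1, ?_⟩
    rw [Submodule.coe_sub, hsum, add_sub_cancel_left]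
  have hfin : Finite (↥(fixedBy A K) ⧸ (TT A K φ).range) := inferInstance
  calc t.card = Nat.card ↥t := by rw [Nat.card_eq_fintype_card, Fintype.card_coe]
    _ ≤ Nat.card (↥(fixedBy A K) ⧸ (TT A K φ).range) := Nat.card_le_card_of_injective Ψ hΨ
    _ = Nat.card (TT A K φ).ker := card_quotient_range_eq_card_ker _
    _ ≤ Nat.card A.ρ.invariants :=
        Nat.card_le_card_of_injective
          (fun a : (TT A K φ).ker => (⟨a.1.1, mem_invariants_of_mem_ker A K φ hgen a.2⟩ :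
            A.ρ.invariants))
          (fun a b hab => Subtype.ext (Subtype.ext (congrArg (fun z : A.ρ.invariants => z.1) hab)))

end Level

section Union

variable (𝓑 : LevelBasis G) (Iner : Subgroup G) [hI : Iner.Normal]

/-- Level cocycles vanishing on `Iner`. -/
def Zur : Submodule k ↥(Z1 𝓑 A) where
  carrier := {f | ∀ τ ∈ Iner, (f : G → A) τ = 0}
  add_mem' {a b} ha hb τ hτ := by
    rw [Submodule.coe_add, Pi.add_apply, ha τ hτ, hb τ hτ, add_zero]
  zero_mem' τ _ := rfl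
  smul_mem' c a ha τ hτ := by
    rw [Submodule.coe_smul, Pi.smul_apply, ha τ hτ, smul_zero]

/-- `H¹_ur`: the classes represented by a level cocycle vanishing on `Iner`. -/
def H1ur : Submodule k (H1 𝓑 A) := (Zur A 𝓑 Iner).map (H1mk 𝓑 A)

theorem mem_H1ur_iff (x : H1 𝓑 A) :
    x ∈ H1ur A 𝓑 Iner ↔
      ∃ f : ↥(Z1 𝓑 A), H1mk 𝓑 A f = x ∧ ∀ τ ∈ Iner, (f : G → A) τ = 0 := by
  constructor
  · rintro ⟨f, hf, rfl⟩
    exact ⟨f, rfl, hf⟩
  · rintro ⟨f, rfl, hf⟩
    exact ⟨f, hf, rfl⟩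

theorem mk_mem_H1ur {f : ↥(Z1 𝓑 A)} (hf : ∀ τ ∈ Iner, (f : G → A) τ = 0) :
    H1mk 𝓑 A f ∈ H1ur A 𝓑 Iner := (mem_H1ur_iff A 𝓑 Iner _).2 ⟨f, rfl, hf⟩

/-- **Procyclicity of `G / Iner` at every finite normal level**: `G` is generated by `Iner`, `U` and
one element `φ` (which may depend on `U`). -/
def Procyclic : Prop :=
  ∀ U ∈ 𝓑.sets, U.Normal → ∃ φ : G, ∀ Z : Subgroup G, Iner ≤ Z → U ≤ Z → φ ∈ Z → Z = ⊤

/-- Procyclicity from a decomposition `g = φ ^ n * τ * u` at every normal level. -/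
theorem procyclic_of_decomp
    (h : ∀ U ∈ 𝓑.sets, U.Normal → ∃ φ : G, ∀ g : G, ∃ n : ℕ, ∃ τ ∈ Iner, ∃ u ∈ U,
      g = φ ^ n * (τ * u)) : Procyclic 𝓑 Iner := by
  intro U hU hUn
  obtain ⟨φ, hφ⟩ := h U hU hUn
  refine ⟨φ, fun Z hI hUZ hφZ => ?_⟩
  rw [eq_top_iff]
  intro g _
  obtain ⟨n, τ, hτ, u, hu, rfl⟩ := hφ g
  exact Z.mul_mem (Z.pow_mem hφZ n) (Z.mul_mem (hI hτ) (hUZ hu))

/-- Procyclicity from ONE element `φ` generating `G` together with `Iner` and any open subgroup. -/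
theorem procyclic_of_uniform (φ : G)
    (h : ∀ Z : Subgroup G, Iner ≤ Z → φ ∈ Z → (∃ U ∈ 𝓑.sets, U ≤ Z) → Z = ⊤) :
    Procyclic 𝓑 Iner :=
  fun U hU _ => ⟨φ, fun Z hI hUZ hφZ => h Z hI hφZ ⟨U, hU, hUZ⟩⟩

/-- Finitely many level cochains have a common normal level. -/
theorem exists_common_level {X : Type*} (s : Finset (G → X))
    (hs : ∀ f ∈ s, IsLevel₁ 𝓑.sets f) :
    ∃ U ∈ 𝓑.sets, U.Normal ∧ ∀ f ∈ s, InvOn₁ U f := by
  classical
  induction s using Finset.induction_on with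
  | empty =>
    obtain ⟨U, hU⟩ := 𝓑.isBasis.nonempty
    obtain ⟨V, hV, -, hVn⟩ := 𝓑.isBasis.normalCore U hU
    exact ⟨V, hV, hVn, fun f hf => absurd hf (Finset.notMem_empty f)⟩
  | insert a s ha ih =>
    obtain ⟨U, hU, -, hUs⟩ := ih fun f hf => hs f (Finset.mem_insert_of_mem hf)
    obtain ⟨U', hU', hU'a⟩ := hs a (Finset.mem_insert_self a s)
    obtain ⟨W, hW, hWle⟩ := 𝓑.isBasis.directed U hU U' hU'
    obtain ⟨V, hV, hVW, hVn⟩ := 𝓑.isBasis.normalCore W hW
    refine ⟨V, hV, hVn, fun f hf => ?_⟩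
    rcases Finset.mem_insert.1 hf with rfl | hf
    · exact hU'a.mono (hVW.trans (hWle.trans inf_le_right))
    · exact (hUs f hf).mono (hVW.trans (hWle.trans inf_le_left))

/-- Every finite set of classes of `H¹_ur` has at most `#A^G` elements. -/
theorem card_finset_le [Finite A] (hPC : Procyclic 𝓑 Iner) (t : Finset (H1 𝓑 A))
    (ht : ∀ x ∈ t, x ∈ H1ur A 𝓑 Iner) : t.card ≤ Nat.card A.ρ.invariants := by
  classical
  have ht' : ∀ x ∈ t, ∃ f : ↥(Z1 𝓑 A), H1mk 𝓑 A f = x ∧ ∀ τ ∈ Iner, (f : G → A) τ = 0 :=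
    fun x hx => (mem_H1ur_iff A 𝓑 Iner x).1 (ht x hx)
  choose! rep hrep hrepI using ht'
  obtain ⟨U, hU, hUn, hUs⟩ := exists_common_level 𝓑 (t.image fun x => (rep x : G → A))
    (fun f hf => by
      obtain ⟨x, -, rfl⟩ := Finset.mem_image.1 hf
      exact (rep x).2.2)
  obtain ⟨φ, hφ⟩ := hPC U hU hUn
  have : (Iner ⊔ U).Normal := Subgroup.sup_normal Iner U
  refine card_le_of_level A (Iner ⊔ U) φ (fun Z hZ hφZ => ?_) 𝓑 t
    (fun x hx => ⟨rep x, hrep x hx, ?_⟩)
  · exact hφ Z (le_sup_left.trans hZ) (le_sup_right.trans hZ) hφZ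
  · -- `rep x` vanishes on `Iner ⊔ U`
    have hcoc : (rep x : G → A) ∈ cocycles₁ A := (rep x).2.1
    have hle : Iner ⊔ U ≤ zeroSubgroup A (rep x : G → A) hcoc := by
      refine sup_le (fun τ hτ => hrepI x hx τ hτ) (fun u hu => ?_)
      rw [mem_zeroSubgroup]
      have h1 := hUs _ (Finset.mem_image_of_mem _ hx) 1 u hu
      rw [one_mul] at h1
      rw [h1]
      exact cocycles₁_map_one ⟨_, hcoc⟩
    exact fun κ hκ => hle hκ

/-- `H¹_ur` is finite. -/
theorem finite_H1ur [Finite A] (hPC : Procyclic 𝓑 Iner) : Finite ↥(H1ur A 𝓑 Iner) := by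
  classical
  by_contra hfin
  rw [not_finite_iff_infinite] at hfin
  obtain ⟨t, ht⟩ := Infinite.exists_subset_card_eq ↥(H1ur A 𝓑 Iner)
    (Nat.card A.ρ.invariants + 1)
  have := card_finset_le A 𝓑 Iner hPC (t.map ⟨Subtype.val, Subtype.val_injective⟩) (fun x hx => by
    obtain ⟨y, -, rfl⟩ := Finset.mem_map.1 hx
    exact y.2)
  rw [Finset.card_map, ht] at this
  omega

/-- **(UR), abstract.**  `#H¹_ur ≤ #A^G`. -/
theorem card_H1ur_le [Finite A] (hPC : Procyclic 𝓑 Iner) :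
    Nat.card ↥(H1ur A 𝓑 Iner) ≤ Nat.card A.ρ.invariants := by
  classical
  have := finite_H1ur A 𝓑 Iner hPC
  have := Fintype.ofFinite ↥(H1ur A 𝓑 Iner)
  have := card_finset_le A 𝓑 Iner hPC ((Finset.univ : Finset ↥(H1ur A 𝓑 Iner)).map
    ⟨Subtype.val, Subtype.val_injective⟩) (fun x hx => by
      obtain ⟨y, -, rfl⟩ := Finset.mem_map.1 hx
      exact y.2)
  rwa [Finset.card_map, Finset.card_univ, ← Nat.card_eq_fintype_card] at this

end Union

end Fermat.Agent.TW.B5.Adapt57.UnrAbstract
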