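/-
Programme TW (S56), brick B5-ADAPT (helper57).  Step (UR) at `p`, concrete form:
the inertia subgroup `{τ | IsInertial p τ}` of `G_p`, the generation property (from helper66's
`LocalFrob66`: Frobenius + inertia generate `G_p` topologically), and the resulting bound
`#H¹_ur(ℚ_p, M) ≤ #M^{G_p}` in the level cohomology `H1l (pPrime p) M`.
-/
import Mathlib
import Fermat.Agent.TW.B5.Iface
import Fermat.Agent.TW.B5.Adapt57.UnrAbstract
import Fermat.Agent.TW.LocalFrob66
import Fermat.Agent.TW.GWIface97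
import Fermat.Agent.PT.BR.LocInj13

set_option autoImplicit false
set_option linter.unusedSectionVars false

open Polynomial

namespace Fermat.Agent.TW.B5.Adapt57.UnrLocal

open ExtCitation
open Fermat.Agent.PT.PRO Fermat.Agent.PT.BR Fermat.Agent.PT.BR.LevelBridge13
open Fermat.Agent.TW.B5.Iface Fermat.Agent.TW.GWIface97 Fermat.Agent.TW

variable (p : ℕ) [Fact p.Prime]

theorem norm_apply (g : Gp p) (x : Kbar p) : ‖g x‖ = ‖x‖ := LocalFrob66.norm_apply g x

/-- The inertia subgroup of `G_p`. -/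
def inertia : Subgroup (Gp p) where
  carrier := {τ | IsInertial p τ}
  mul_mem' {σ τ} hσ hτ := by
    intro x hx
    have h1 : (σ * τ) x - x = (σ (τ x) - τ x) + (τ x - x) := by
      rw [AlgEquiv.mul_apply]; abel
    rw [h1]
    refine lt_of_le_of_lt (PadicAlgCl.isNonarchimedean p _ _) (max_lt ?_ (hτ x hx))
    exact hσ (τ x) (by rw [norm_apply]; exact hx)
  one_mem' := by
    intro x _
    rw [AlgEquiv.one_apply, sub_self, norm_zero]
    exact one_pos
  inv_mem' {τ} hτ := by
    intro x hx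
    have h1 : ‖τ⁻¹ x - x‖ = ‖τ (τ⁻¹ x - x)‖ := (norm_apply p τ _).symm
    have h2 : τ (τ⁻¹ x) = x := by
      change (τ * τ⁻¹) x = x
      rw [mul_inv_cancel, AlgEquiv.one_apply]
    rw [h1, map_sub, h2, ← norm_neg, neg_sub]
    exact hτ x hx

theorem mem_inertia_iff (τ : Gp p) : τ ∈ inertia p ↔ IsInertial p τ := Iff.rfl

instance inertia_normal : (inertia p).Normal where
  conj_mem τ hτ g := by
    intro x hx
    have h2 : g (g⁻¹ x) = x := by
      change (g * g⁻¹) x = x
      rw [mul_inv_cancel, AlgEquiv.one_apply]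
    have h1 : (g * τ * g⁻¹) x - x = g (τ (g⁻¹ x) - g⁻¹ x) := by
      rw [map_sub, h2]
      rfl
    rw [h1, norm_apply]
    exact hτ _ (by rw [norm_apply]; exact hx)

/-- The unit ball of `K̄` consists of integral elements. -/
theorem isIntegral_of_norm_le_one {x : Kbar p} (hx : ‖x‖ ≤ 1) : IsIntegral ℤ_[p] x := by
  have hint : IsIntegral ℚ_[p] x := Algebra.IsIntegral.isIntegral x
  rw [← PadicAlgCl.spectralNorm_eq, spectralNorm, spectralValue_le_one_iff (minpoly.monic hint)]
    at hx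
  have hl : minpoly ℚ_[p] x ∈ lifts (algebraMap ℤ_[p] ℚ_[p]) := by
    rw [lifts_iff_coeff_lifts]
    intro n
    exact ⟨⟨_, hx n⟩, rfl⟩
  obtain ⟨P, hP, -, hmonic⟩ := lifts_and_degree_eq_and_monic hl (minpoly.monic hint)
  refine ⟨P, hmonic, ?_⟩
  have h0 : aeval x (minpoly ℚ_[p] x) = 0 := minpoly.aeval ℚ_[p] x
  rw [← hP, aeval_map_algebraMap] at h0
  exact h0

/-- `IsInertial` is helper66's intrinsic predicate. -/
theorem isInertial_iff (τ : Gp p) :
    IsInertial p τ ↔ ∀ b : LocalFrob66.B p,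
      Ideal.Quotient.mk (LocalFrob66.Qid p) (τ • b) = Ideal.Quotient.mk (LocalFrob66.Qid p) b := by
  constructor
  · intro h b
    rw [LocalFrob66.mk_eq_mk_iff, LocalFrob66.coe_smul]
    exact h _ (LocalFrob66.norm_le_one b)
  · intro h x hx
    have := h ⟨x, isIntegral_of_norm_le_one p hx⟩
    rwa [LocalFrob66.mk_eq_mk_iff, LocalFrob66.coe_smul] at this

/-- **(GEN) at `p`**: a Frobenius lift `φ` such that every subgroup of `G_p` containing inertia, `φ` and
a level subgroup is everything. -/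
theorem exists_gen : ∃ φ : Gp p, ∀ Z : Subgroup (Gp p), inertia p ≤ Z → φ ∈ Z →
    (∃ U ∈ (pullBasis (localGaloisToGlobal p)).sets, U ≤ Z) → Z = ⊤ := by
  obtain ⟨φ, hφ⟩ := LocalFrob66.exists_frobenius p
  refine ⟨φ, fun Z hI hφZ hU => ?_⟩
  obtain ⟨U, ⟨F, hF, rfl⟩, hUZ⟩ := hU
  have hopen : IsOpen ((F.fixingSubgroup.comap (localGaloisToGlobal p) :
      Subgroup (Gp p)) : Set (Gp p)) := by
    have h1 : (F.fixingSubgroup.comap (localGaloisToGlobal p) : Subgroup (Gp p)) =
        (LocInj13.localField p F).fixingSubgroup := by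
      ext τ
      rw [Subgroup.mem_comap]
      exact (LocInj13.mem_fixingSubgroup_localField_iff p F τ).symm
    rw [h1]
    exact IntermediateField.fixingSubgroup_isOpen _
  refine LocalFrob66.eq_top_of_open hφ Z (Subgroup.isOpen_mono hUZ hopen) (fun g hg => ?_) hφZ
  exact hI ((isInertial_iff p g).2 hg)

/-! ### In the vocabulary of `GWIface97` -/

local notation "Γ" => (AlgebraicClosure ℚ ≃ₐ[ℚ] AlgebraicClosure ℚ)

/-- The inertia subgroup, in the local group `primeLocalGaloisGroup (pPrime p)` (which is `G_p`). -/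
def inertiaP : Subgroup (primeLocalGaloisGroup (pPrime p)) := inertia p

instance inertiaP_normal : (inertiaP p).Normal := inertia_normal p

theorem mem_inertiaP_iff (τ : primeLocalGaloisGroup (pPrime p)) :
    τ ∈ inertiaP p ↔ IsInertial p τ := Iff.rfl

theorem procyclicP :
    UnrAbstract.Procyclic (pullBasis (primeLocalToGlobal (pPrime p))) (inertiaP p) := by
  obtain ⟨φ, hφ⟩ := exists_gen p
  exact UnrAbstract.procyclic_of_uniform _ _ φ hφ

/-- `H¹_ur(ℚ_p, M)`: classes of level cocycles vanishing on `{τ | IsInertial p τ}`. -/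
noncomputable def H1urP (M : Rep.{0} (ZMod p) Γ) : Submodule (ZMod p) (H1l (pPrime p) M) :=
  UnrAbstract.H1ur (Rep.res (primeLocalToGlobal (pPrime p)) M)
    (pullBasis (primeLocalToGlobal (pPrime p))) (inertiaP p)

theorem mem_H1urP_iff (M : Rep.{0} (ZMod p) Γ) (x : H1l (pPrime p) M) :
    x ∈ H1urP p M ↔
      ∃ f : ↥(LevelCoh28.Z1 (pullBasis (primeLocalToGlobal (pPrime p)))
          (Rep.res (primeLocalToGlobal (pPrime p)) M)),
        LevelCoh28.H1mk _ _ f = x ∧
          ∀ τ : primeLocalGaloisGroup (pPrime p), IsInertial p τ →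
            (f : primeLocalGaloisGroup (pPrime p) → M) τ = 0 :=
  UnrAbstract.mem_H1ur_iff _ _ _ x

/-- **(UR) at `p`.** -/
theorem card_H1urP_le (M : Rep.{0} (ZMod p) Γ) [Finite M] :
    Nat.card ↥(H1urP p M) ≤
      Nat.card (Rep.res (primeLocalToGlobal (pPrime p)) M).ρ.invariants :=
  UnrAbstract.card_H1ur_le (Rep.res (primeLocalToGlobal (pPrime p)) M) _ _ (procyclicP p)

theorem finite_H1urP (M : Rep.{0} (ZMod p) Γ) [Finite M] : Finite ↥(H1urP p M) :=
  UnrAbstract.finite_H1ur (Rep.res (primeLocalToGlobal (pPrime p)) M) _ _ (procyclicP p)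

end Fermat.Agent.TW.B5.Adapt57.UnrLocal
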