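/-
Programme TW (S56), brick B5-ADAPT (helper57):  `LocalFlatInertialLine p → SIface72.LocFL 𝒪 p`.

The local condition at `p` in the flat case is
`L_p := {classes of λ • c₀ | λ ∈ k} + H¹_ur(ℚ_p, ad⁰)`, `c₀` a flat def-cocycle whose restriction to
inertia is not a coboundary (`c₀ := 0` if there is none); `#L_p ≤ #k · #H¹_ur ≤ #k · #H⁰(ℚ_p, ad⁰)`.
-/
import Mathlib
import Fermat.Agent.TW.SIface72
import Fermat.Agent.TW.LocCls57
import Fermat.Agent.TW.B5.Adapt57.FlatTransport
import Fermat.Agent.TW.B5.Adapt57.Transport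
import Fermat.Agent.TW.B5.Adapt57.UnrLocal

set_option autoImplicit false
set_option linter.unusedSectionVars false

open Polynomial IsLocalRing
open ExtCitation groupCohomology
open Fermat.Agent.PT.PRO Fermat.Agent.PT.BR Fermat.Agent.PT.BR.LevelBridge13
open Fermat.Agent.TW.Interface Fermat.Agent.TW.GWIface97 Fermat.Agent.TW.SDefs72
open Fermat.Agent.TW.B5.Iface Fermat.Agent.TW.LocCls57

namespace Fermat.Agent.TW.B5.Adapt57.Main

local notation "Γ" => (AlgebraicClosure ℚ ≃ₐ[ℚ] AlgebraicClosure ℚ)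

/-- The size of a sum of two finite submodules. -/
theorem card_sup_le {R M : Type*} [Ring R] [AddCommGroup M] [Module R M] (L₁ L₂ : Submodule R M)
    [Finite L₁] [Finite L₂] : Nat.card ↥(L₁ ⊔ L₂) ≤ Nat.card L₁ * Nat.card L₂ := by
  rw [← Nat.card_prod]
  refine Nat.card_le_card_of_surjective
    (fun x : L₁ × L₂ => (⟨x.1.1 + x.2.1, Submodule.add_mem_sup x.1.2 x.2.2⟩ : ↥(L₁ ⊔ L₂))) ?_
  rintro ⟨y, hy⟩
  obtain ⟨a, ha, b, hb, rfl⟩ := Submodule.mem_sup.1 hy
  exact ⟨(⟨a, ha⟩, ⟨b, hb⟩), rfl⟩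

section Normalise

variable {k : Type} [Field k] (ρbar : ResidualGaloisRep k)

/-- Replace `X` by a trace-zero endomorphism with the same coboundary (`2` invertible). -/
theorem exists_trace_zero (h2 : (2 : k) ≠ 0) (X : Module.End k ρbar.V) :
    ∃ X₀ : Module.End k ρbar.V, LinearMap.trace k ρbar.V X₀ = 0 ∧
      ∀ σ : Γ, conj ρbar σ X₀ - X₀ = conj ρbar σ X - X := by
  set a : k := LinearMap.trace k ρbar.V X / 2 with ha
  refine ⟨X - a • 1, ?_, fun σ => ?_⟩
  · rw [map_sub, map_smul, LinearMap.trace_one, ρbar.finrank_eq, ha, smul_eq_mul]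
    push_cast
    field_simp
    ring
  · have h1 : conj ρbar σ (a • (1 : Module.End k ρbar.V)) = a • 1 := by
      rw [conj_smul]
      unfold conj
      rw [mul_one, ← map_mul, mul_inv_cancel, map_one]
    rw [conj_sub, h1]
    abel

end Normalise

variable (𝒪 : Type) [CommRing 𝒪] [IsDomain 𝒪] [IsDiscreteValuationRing 𝒪]
  [IsAdicComplete (maximalIdeal 𝒪) 𝒪] [Finite (ResidueField 𝒪)]

variable (p : ℕ) [Fact p.Prime]

theorem two_ne_zero_of_char {k : Type} [Field k] (hp2 : p ≠ 2) (hchar : ((p : ℕ) : k) = 0) :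
    (2 : k) ≠ 0 := by
  intro h2
  have hp : p.Prime := Fact.out
  obtain ⟨m, hm⟩ := hp.odd_of_ne_two hp2
  have : ((p : ℕ) : k) = 1 := by
    rw [hm]
    push_cast
    rw [h2, zero_mul, zero_add]
  rw [hchar] at this
  exact zero_ne_one this

section Core

variable {p}
variable {k : Type} [Field k] [Finite k] (ρbar : ResidualGaloisRep k) (hchar : ((p : ℕ) : k) = 0)

/-- `ad⁰ ρbar` is finite. -/
theorem finite_ad0F : Finite (ad0F ρbar p hchar) := by
  have h1 : Finite (Module.End k ρbar.V) := Module.finite_of_finite k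
  exact Finite.of_injective (ad0F.val ρbar p hchar) (ad0F.val_injective ρbar p hchar)

/-- The additive map `λ ↦ class of (λ • c₀)` restricted to the local group at `p`. -/
noncomputable def lineHom {c₀ : Γ → Module.End k ρbar.V} (hc₀ : IsDefCocycle ρbar c₀) :
    k →+ H1l (pPrime p) (ad0F ρbar p hchar) where
  toFun lam := locCls ρbar p hchar (pPrime p) (lam • c₀)
  map_zero' := by
    rw [zero_smul]
    exact locCls_zero ρbar p hchar (pPrime p)
  map_add' a b := by
    rw [add_smul]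
    exact locCls_add ρbar p hchar (pPrime p) (isDefCocycle_smul hc₀ a) (isDefCocycle_smul hc₀ b)

/-- The local condition at `p` in the flat case. -/
noncomputable def Lp {c₀ : Γ → Module.End k ρbar.V} (hc₀ : IsDefCocycle ρbar c₀) :
    Submodule (ZMod p) (H1l (pPrime p) (ad0F ρbar p hchar)) :=
  AddSubgroup.toZModSubmodule p (lineHom ρbar hchar hc₀).range ⊔
    UnrLocal.H1urP p (ad0F ρbar p hchar)

theorem card_Lp_le {c₀ : Γ → Module.End k ρbar.V} (hc₀ : IsDefCocycle ρbar c₀) :
    Nat.card ↥(Lp ρbar hchar hc₀) ≤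
      Nat.card (Rep.res (primeLocalToGlobal (pPrime p)) (ad0F ρbar p hchar)).ρ.invariants *
        Nat.card k := by
  have hfin : Finite (ad0F ρbar p hchar) := finite_ad0F ρbar hchar
  have h1 : Finite ↥(UnrLocal.H1urP p (ad0F ρbar p hchar)) := UnrLocal.finite_H1urP p _
  have h2 : Finite ↥(AddSubgroup.toZModSubmodule p (lineHom ρbar hchar hc₀).range) :=
    Finite.of_surjective (lineHom ρbar hchar hc₀).rangeRestrict
      (lineHom ρbar hchar hc₀).rangeRestrict_surjective
  have h3 : Nat.card ↥(AddSubgroup.toZModSubmodule p (lineHom ρbar hchar hc₀).range) ≤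
      Nat.card k :=
    Nat.card_le_card_of_surjective (lineHom ρbar hchar hc₀).rangeRestrict
      (lineHom ρbar hchar hc₀).rangeRestrict_surjective
  calc Nat.card ↥(Lp ρbar hchar hc₀) ≤ _ := card_sup_le _ _
    _ ≤ Nat.card k *
        Nat.card (Rep.res (primeLocalToGlobal (pPrime p)) (ad0F ρbar p hchar)).ρ.invariants :=
      Nat.mul_le_mul h3 (UnrLocal.card_H1urP_le p _)
    _ = _ := mul_comm _ _

/-- Membership: a def-cocycle which on inertia is `λ • c₀` up to a coboundary has its local class in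
`Lp`. -/
theorem locCls_mem_Lp (h2 : (2 : k) ≠ 0) {c₀ c : Γ → Module.End k ρbar.V}
    (hc₀ : IsDefCocycle ρbar c₀) (hc : IsDefCocycle ρbar c) (lam : k) (X : Module.End k ρbar.V)
    (h : ∀ τ : Gp p, IsInertial p τ →
      c (localGaloisToGlobal p τ) = lam • c₀ (localGaloisToGlobal p τ) +
        (conj ρbar (localGaloisToGlobal p τ) X - X)) :
    locCls ρbar p hchar (pPrime p) c ∈ Lp ρbar hchar hc₀ := by
  obtain ⟨X₀, hX₀, hX₀X⟩ := exists_trace_zero ρbar h2 X
  -- the three pieces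
  have hd1 : IsDefCocycle ρbar (lam • c₀) := isDefCocycle_smul hc₀ lam
  have hd2 : IsDefCocycle ρbar (cob ρbar X₀) := isDefCocycle_cob X₀ hX₀
  have hd3 : IsDefCocycle ρbar (c - lam • c₀ - cob ρbar X₀) :=
    isDefCocycle_sub (isDefCocycle_sub hc hd1) hd2
  have hsum : c = (lam • c₀ + cob ρbar X₀) + (c - lam • c₀ - cob ρbar X₀) := by abel
  have hcls : locCls ρbar p hchar (pPrime p) c =
      locCls ρbar p hchar (pPrime p) (lam • c₀) +
        locCls ρbar p hchar (pPrime p) (c - lam • c₀ - cob ρbar X₀) := by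
    conv_lhs => rw [hsum]
    rw [locCls_add ρbar p hchar (pPrime p) (isDefCocycle_add hd1 hd2) hd3,
      locCls_add ρbar p hchar (pPrime p) hd1 hd2, locCls_cob ρbar p hchar (pPrime p) X₀ hX₀,
      add_zero]
  rw [hcls]
  refine Submodule.add_mem_sup ?_ ?_
  · exact ⟨lam, rfl⟩
  · rw [locCls_eq ρbar p hchar (pPrime p) hd3, UnrLocal.mem_H1urP_iff]
    refine ⟨locZ ρbar p hchar (pPrime p) hd3, rfl, fun τ hτ => ?_⟩
    apply ad0F.val_injective ρbar p hchar
    rw [locZ_apply]
    change (c - lam • c₀ - cob ρbar X₀) (localGaloisToGlobal p τ) = 0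
    simp only [Pi.sub_apply, Pi.smul_apply, cob]
    rw [h τ hτ, hX₀X]
    abel

end Core

/-- **B5-ADAPT.**  The local flat inertial line implies the flat local bound at `p` of pillar (S). -/
theorem locFL_of_local (hL : LocalFlatInertialLine p) : SIface72.LocFL 𝒪 p := by
  intro ρbar S Smin h _
  have hch : ((p : ℕ) : ResidueField 𝒪) = 0 := SIface72.hchar h
  have h2 : (2 : ResidueField 𝒪) ≠ 0 := two_ne_zero_of_char p h.hp2 hch
  have hp : p.Prime := Fact.out
  have : CharP (ResidueField 𝒪) p := (CharP.charP_iff_prime_eq_zero hp).2 hch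
  -- the local statement, transported
  have key : ∀ c₀ c : Γ → Module.End (ResidueField 𝒪) ρbar.V, IsDefCocycle ρbar c₀ →
      IsDefCocycle ρbar c → FLLocal ρbar p c₀ → FLLocal ρbar p c →
      (¬ ∃ X : Module.End (ResidueField 𝒪) ρbar.V, ∀ τ : Gp p, IsInertial p τ →
        c₀ (localGaloisToGlobal p τ) = conj ρbar (localGaloisToGlobal p τ) X - X) →
      ∃ (lam : ResidueField 𝒪) (X : Module.End (ResidueField 𝒪) ρbar.V), ∀ τ : Gp p,
        IsInertial p τ → c (localGaloisToGlobal p τ) = lam • c₀ (localGaloisToGlobal p τ) +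
          (conj ρbar (localGaloisToGlobal p τ) X - X) := by
    intro c₀ c hc₀ hc hf₀ hf hn
    obtain ⟨lam, X, hX⟩ := hL h.hp2 (ResidueField 𝒪) ρbar.V ρbar.finrank_eq (Transport.rloc p ρbar)
      (Transport.rloc_level p ρbar) (Transport.det_rloc p ρbar h.hdet)
      (Transport.charpoly_rloc p ρbar h.hsplit) (Transport.cloc p ρbar c₀) (Transport.cloc p ρbar c)
      (Transport.isLocCocycle_cloc p ρbar hc₀) (Transport.isLocCocycle_cloc p ρbar hc)
      (FlatTransport.isFlatLocalModule_of_isFlatGaloisModule _ hf₀)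
      (FlatTransport.isFlatLocalModule_of_isFlatGaloisModule _ hf)
      (by
        rintro ⟨X, hX⟩
        refine hn ⟨X, fun τ hτ => ?_⟩
        have := hX τ hτ
        rwa [Transport.lconj_rloc] at this)
    refine ⟨lam, X, fun τ hτ => ?_⟩
    have := hX τ hτ
    rwa [Transport.lconj_rloc] at this
  -- choice of `c₀`
  obtain ⟨c₀, hc₀, hP⟩ : ∃ c₀ : Γ → Module.End (ResidueField 𝒪) ρbar.V, IsDefCocycle ρbar c₀ ∧
      ∀ c, IsDefCocycle ρbar c → FLLocal ρbar p c →
        ∃ (lam : ResidueField 𝒪) (X : Module.End (ResidueField 𝒪) ρbar.V), ∀ τ : Gp p,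
          IsInertial p τ → c (localGaloisToGlobal p τ) = lam • c₀ (localGaloisToGlobal p τ) +
            (conj ρbar (localGaloisToGlobal p τ) X - X) := by
    by_cases hex : ∃ c₀ : Γ → Module.End (ResidueField 𝒪) ρbar.V, IsDefCocycle ρbar c₀ ∧
        FLLocal ρbar p c₀ ∧ ¬ ∃ X : Module.End (ResidueField 𝒪) ρbar.V, ∀ τ : Gp p,
          IsInertial p τ →
            c₀ (localGaloisToGlobal p τ) = conj ρbar (localGaloisToGlobal p τ) X - X
    · obtain ⟨c₀, hc₀, hf₀, hn⟩ := hex
      exact ⟨c₀, hc₀, fun c hc hf => key c₀ c hc₀ hc hf₀ hf hn⟩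
    · refine ⟨0, isDefCocycle_zero, fun c hc hf => ?_⟩
      have : ∃ X : Module.End (ResidueField 𝒪) ρbar.V, ∀ τ : Gp p, IsInertial p τ →
          c (localGaloisToGlobal p τ) = conj ρbar (localGaloisToGlobal p τ) X - X := by
        by_contra hcon
        exact hex ⟨c, hc, hf, hcon⟩
      obtain ⟨X, hX⟩ := this
      refine ⟨0, X, fun τ hτ => ?_⟩
      rw [hX τ hτ, zero_smul, zero_add]
  exact ⟨Lp ρbar hch hc₀, card_Lp_le ρbar hch hc₀, fun c hc hf => by
    obtain ⟨lam, X, hX⟩ := hP c hc hf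
    exact locCls_mem_Lp ρbar hch h2 hc₀ hc lam X hX⟩

end Fermat.Agent.TW.B5.Adapt57.Main
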