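/-
Programme TW (S56), pillar (S), the flat local bound at `p`: UNCONDITIONAL (helper57).

`locFL 𝒪 p : SIface72.LocFL 𝒪 p`  =  the adapter `Adapt57.Main.locFL_of_local` (helper57)
applied to the closed brick B5 `B5Main47.localFlatInertialLine` (helper47 and the B5 team).
-/
import Fermat.Agent.TW.B5.Adapt57.Main
import Fermat.Agent.TW.B5.B5Main47

set_option autoImplicit false

open IsLocalRing

namespace Fermat.Agent.TW.B5.Adapt57.Final

variable (𝒪 : Type) [CommRing 𝒪] [IsDomain 𝒪] [IsDiscreteValuationRing 𝒪]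
  [IsAdicComplete (maximalIdeal 𝒪) 𝒪] [Finite (ResidueField 𝒪)]
variable (p : ℕ) [Fact p.Prime]

/-- **LOC-FL**: the flat local bound at `p` of pillar (S), unconditional. -/
theorem locFL : Fermat.Agent.TW.SIface72.LocFL 𝒪 p :=
  Fermat.Agent.TW.B5.Adapt57.Main.locFL_of_local 𝒪 p
    (Fermat.Agent.TW.B5.B5Main47.localFlatInertialLine p)

end Fermat.Agent.TW.B5.Adapt57.Final
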