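/-
Programme TW (S56), brick B5-ADAPT (helper57).  Step (T1): transport of the global data
(`ρbar`, def-cocycles, the standing hypotheses) along `localGaloisToGlobal p : G_p → G_ℚ`.
-/
import Mathlib
import Fermat.Agent.TW.B5.Iface
import Fermat.Agent.PT.BR.LocInj13

set_option autoImplicit false
set_option linter.unusedSectionVars false

open Polynomial

namespace Fermat.Agent.TW.B5.Adapt57.Transport

open Fermat.Agent.TW.Interface Fermat.Agent.TW.B5.Iface Fermat.Agent.PT.BR

variable (p : ℕ) [Fact p.Prime] {k : Type} [Field k] (ρbar : ResidualGaloisRep k)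

/-- The restriction of `ρbar` to `G_p`. -/
noncomputable def rloc : Gp p →* Module.End k ρbar.V := ρbar.ρ.comp (localGaloisToGlobal p)

/-- The restriction of a cochain to `G_p`. -/
noncomputable def cloc (c : GalQ → Module.End k ρbar.V) : Gp p → Module.End k ρbar.V :=
  fun τ => c (localGaloisToGlobal p τ)

@[simp] theorem rloc_apply (τ : Gp p) : rloc p ρbar τ = ρbar.ρ (localGaloisToGlobal p τ) := rfl

@[simp] theorem cloc_apply (c : GalQ → Module.End k ρbar.V) (τ : Gp p) :
    cloc p ρbar c τ = c (localGaloisToGlobal p τ) := rfl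

theorem lconj_rloc (τ : Gp p) (X : Module.End k ρbar.V) :
    lconj (rloc p ρbar) τ X = conj ρbar (localGaloisToGlobal p τ) X := by
  unfold lconj conj
  rw [rloc_apply, rloc_apply, map_inv]

theorem lliftAct_eq (c : GalQ → Module.End k ρbar.V) (τ : Gp p) :
    lliftAct (rloc p ρbar) (cloc p ρbar c) τ = liftAct ρbar c (localGaloisToGlobal p τ) := rfl

/-- A finite extension of `ℚ` gives a finite extension of `ℚ_p` whose fixing subgroup maps into the
fixing subgroup of the global field. -/
theorem exists_local_level (F : IntermediateField ℚ (AlgebraicClosure ℚ)) [FiniteDimensional ℚ F] :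
    ∃ F' : IntermediateField ℚ_[p] (Kbar p), FiniteDimensional ℚ_[p] F' ∧
      ∀ τ : Gp p, (∀ x ∈ F', τ x = x) → ∀ y ∈ F, localGaloisToGlobal p τ y = y := by
  refine ⟨LocInj13.localField p F, inferInstance, fun τ hτ y hy => ?_⟩
  have h1 : τ ∈ (LocInj13.localField p F).fixingSubgroup :=
    (IntermediateField.mem_fixingSubgroup_iff _ _).2 hτ
  have h2 := (LocInj13.mem_fixingSubgroup_localField_iff p F τ).1 h1
  exact (IntermediateField.mem_fixingSubgroup_iff _ _).1 h2 y hy

theorem isLocCocycle_cloc {c : GalQ → Module.End k ρbar.V} (hc : IsDefCocycle ρbar c) :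
    IsLocCocycle (rloc p ρbar) (cloc p ρbar c) where
  map_mul σ τ := by
    rw [cloc_apply, map_mul, hc.map_mul, lconj_rloc]
    rfl
  trace_eq_zero σ := hc.trace_eq_zero _
  level := by
    obtain ⟨F, hF, h⟩ := hc.level
    obtain ⟨F', hF', h'⟩ := exists_local_level p F
    refine ⟨F', hF', fun σ τ hτ => ?_⟩
    rw [cloc_apply, map_mul]
    exact h _ _ (h' τ hτ)

theorem rloc_level : ∃ F : IntermediateField ℚ_[p] (Kbar p), FiniteDimensional ℚ_[p] F ∧
    ∀ τ : Gp p, (∀ x ∈ F, τ x = x) → rloc p ρbar τ = 1 := by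
  obtain ⟨F, hF, h⟩ := ρbar.factorsThroughFiniteLevel
  obtain ⟨F', hF', h'⟩ := exists_local_level p F
  exact ⟨F', hF', fun τ hτ => h _ (h' τ hτ)⟩

theorem actsOnMuP_global {τ : Gp p} {a : ℕ} (h : ActsOnMuP p τ a) (μ : AlgebraicClosure ℚ)
    (hμ : μ ^ p = 1) : localGaloisToGlobal p τ μ = μ ^ a := by
  have hinj : Function.Injective (padicEmbedding p) := (padicEmbedding p).injective
  apply hinj
  rw [padicEmbedding_localGaloisToGlobal, map_pow]
  apply h
  rw [← map_pow, hμ, map_one]

theorem det_rloc (hdet : (GaloisRepAdic.ofResidualGaloisRep ρbar).DetIsCyclotomic p)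
    (τ : Gp p) (a : ℕ) (h : ActsOnMuP p τ a) : LinearMap.det (rloc p ρbar τ) = (a : k) := by
  obtain ⟨hp, hd⟩ := hdet
  have hp0 : (p : k) = 0 := by
    rwa [IsLocalRing.maximalIdeal_eq_bot, Ideal.mem_bot] at hp
  have := hd 1 (localGaloisToGlobal p τ) a (fun μ hμ => by
    rw [pow_one] at hμ
    exact actsOnMuP_global p h μ hμ)
  rw [pow_one, hp0, Ideal.span_singleton_zero, Ideal.mem_bot, sub_eq_zero] at this
  exact this

theorem charpoly_rloc (hsplit : ∀ σ : GalQ, ∃ α β : k,
    LinearMap.charpoly (ρbar.ρ σ) = (X - C α) * (X - C β)) (τ : Gp p) :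
    ∃ α β : k, LinearMap.charpoly (rloc p ρbar τ) = (X - C α) * (X - C β) :=
  hsplit _

end Fermat.Agent.TW.B5.Adapt57.Transport
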